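/-
S18 / Program J, leaf C1-D1e (helper7): abstract "adjugate count" behind the tame discriminant
bound, in a shape without any module or instance hypotheses.

`R` a domain, `φ : R → κ` a surjection onto a field with kernel `(t)` and reflecting units,
finite `t`-adic multiplicities.  `G` a square matrix over `R` with
* (a) `G y ∈ t² Rⁿ ⇒ y ∈ t Rⁿ`   (tameness),
* (b) some `V G Vᵀ` (`V` with `s` rows) is invertible modulo `t`.
Then `det G ≠ 0` and `t ^ k ∣ det G` implies `k + s ≤ n`.
(The kernel lemma is `Fermat.Agent.S18.H31.pow_dvd_det_of_ker`.)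
-/
import Mathlib
import Fermat.Agent.S18.H31.TameDiscr

set_option autoImplicit false

namespace Fermat.Agent.S18.H7

open Matrix

section Abstract

variable {R κ : Type*} [CommRing R] [IsDomain R] [Field κ]

/-- Entrywise cancellation of a nonzero scalar. -/
theorem smul_matrix_cancel {m n : Type*} {c : R} (hc : c ≠ 0) {A B : Matrix m n R}
    (h : c • A = c • B) : A = B := by
  ext i j
  have := congrFun (congrFun h i) j
  simp only [Matrix.smul_apply, smul_eq_mul] at this
  exact mul_left_cancel₀ hc this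

/-- Under tameness (a), a matrix with a kernel vector is impossible: `det G ≠ 0`. -/
theorem det_ne_zero_of_tame {n : Type*} [Fintype n] [DecidableEq n] (t : R) (ht0 : t ≠ 0)
    (hfin : ∀ a : R, a ≠ 0 → ∃ k : ℕ, ¬ t ^ k ∣ a) (G : Matrix n n R)
    (ha : ∀ y : n → R, (∀ i, t ^ 2 ∣ (G *ᵥ y) i) → ∀ i, t ∣ y i) : G.det ≠ 0 := by
  intro hdet
  obtain ⟨v, hv0, hv⟩ := Matrix.exists_mulVec_eq_zero_iff.mpr hdet
  have key : ∀ j : ℕ, ∀ v : n → R, G *ᵥ v = 0 → ∀ i, t ^ j ∣ v i := by
    intro j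
    induction j with
    | zero => intro v _ i; simp
    | succ j ih =>
      intro v hv i
      have h1 : ∀ i, t ∣ v i := ha v (fun i => by rw [hv]; simp)
      choose v' hv' using h1
      have hv'' : v = t • v' := by
        funext i; rw [Pi.smul_apply, smul_eq_mul]; exact hv' i
      have h2 : G *ᵥ v' = 0 := by
        have h3 : t • (G *ᵥ v') = 0 := by rw [← Matrix.mulVec_smul, ← hv'', hv]
        funext i
        have := congrFun h3 i
        simp only [Pi.smul_apply, smul_eq_mul, Pi.zero_apply, mul_eq_zero] at this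
        exact this.resolve_left ht0
      rw [hv' i, pow_succ']
      exact mul_dvd_mul_left t (ih v' h2 i)
  obtain ⟨i, hi⟩ : ∃ i, v i ≠ 0 := by
    by_contra hcon
    push Not at hcon
    exact hv0 (funext hcon)
  obtain ⟨k, hk⟩ := hfin (v i) hi
  exact hk (key k v hv i)

/-- **Adjugate count.** -/
theorem tame_count {n : Type*} [Fintype n] [DecidableEq n] {σ : Type*} [Fintype σ]
    [DecidableEq σ] (φ : R →+* κ) (hφ : Function.Surjective φ) (t : R) (ht0 : t ≠ 0)
    (hker : ∀ a, φ a = 0 ↔ t ∣ a) (hunit : ∀ a, φ a ≠ 0 → IsUnit a)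
    (hfin : ∀ a : R, a ≠ 0 → ∃ k : ℕ, ¬ t ^ k ∣ a) (G : Matrix n n R)
    (ha : ∀ y : n → R, (∀ i, t ^ 2 ∣ (G *ᵥ y) i) → ∀ i, t ∣ y i)
    (V : Matrix σ n R) (hV : φ (V * G * Vᵀ).det ≠ 0) :
    G.det ≠ 0 ∧ ∀ k : ℕ, t ^ k ∣ G.det → k + Fintype.card σ ≤ Fintype.card n := by
  have hd : G.det ≠ 0 := det_ne_zero_of_tame t ht0 hfin G ha
  refine ⟨hd, ?_⟩
  -- `t` is prime
  have htprime : Prime t := by
    refine ⟨ht0, ?_, ?_⟩
    · intro hu
      have h1 : φ t = 0 := (hker t).mpr dvd_rfl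
      have h2 : IsUnit (φ t) := hu.map φ
      rw [h1] at h2
      exact not_isUnit_zero h2
    · intro a b hab
      have h1 : φ (a * b) = 0 := (hker _).mpr hab
      rw [map_mul, mul_eq_zero] at h1
      exact h1.imp (hker a).mp (hker b).mp
  -- rank of the reduction is at least `s`
  have hrank : Fintype.card σ ≤ (G.map φ).rank := by
    have h1 : IsUnit ((V * G * Vᵀ).map φ) := by
      rw [Matrix.isUnit_iff_isUnit_det]
      have : ((V * G * Vᵀ).map φ).det = φ (V * G * Vᵀ).det := by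
        rw [RingHom.map_det]; rfl
      rw [this]
      exact isUnit_iff_ne_zero.mpr hV
    have h2 := Matrix.rank_of_isUnit _ h1
    have h3 : (V * G * Vᵀ).map φ = V.map φ * G.map φ * Vᵀ.map φ := by
      rw [Matrix.map_mul, Matrix.map_mul]
    rw [h3] at h2
    calc Fintype.card σ = (V.map φ * G.map φ * Vᵀ.map φ).rank := h2.symm
      _ ≤ (V.map φ * G.map φ).rank := Matrix.rank_mul_le_left _ _
      _ ≤ (G.map φ).rank := Matrix.rank_mul_le_right _ _
  -- the exact multiplicity `k₀`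
  obtain ⟨k₁, hk₁⟩ := hfin _ hd
  classical
  let k₁' := Nat.find (p := fun k => ¬ t ^ k ∣ G.det) ⟨k₁, hk₁⟩
  have hk₁' : ¬ t ^ k₁' ∣ G.det := Nat.find_spec (p := fun k => ¬ t ^ k ∣ G.det) ⟨k₁, hk₁⟩
  have hk₁pos : k₁' ≠ 0 := by
    intro h0
    rw [h0, pow_zero] at hk₁'
    exact hk₁' (one_dvd _)
  obtain ⟨k₀, hk₀⟩ : ∃ k₀, k₁' = k₀ + 1 := ⟨k₁' - 1, by omega⟩
  have hk₀dvd : t ^ k₀ ∣ G.det := by
    have := Nat.find_min (p := fun k => ¬ t ^ k ∣ G.det) ⟨k₁, hk₁⟩ (m := k₀)
      (by change k₀ < k₁'; omega)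
    exact not_not.mp this
  have hk₀max : ∀ k, t ^ k ∣ G.det → k ≤ k₀ := by
    intro k hk
    by_contra hcon
    have h1 : k₀ + 1 ≤ k := by omega
    apply hk₁'
    rw [hk₀]
    exact (pow_dvd_pow t h1).trans hk
  obtain ⟨w, hw⟩ := hk₀dvd
  have hwt : ¬ t ∣ w := by
    intro h
    apply hk₁'
    rw [hk₀, hw, pow_succ]
    exact mul_dvd_mul_left _ h
  suffices hmain : k₀ + (G.map φ).rank ≤ Fintype.card n by
    intro k hk
    have := hk₀max k hk
    omega
  rcases Nat.eq_zero_or_pos k₀ with hk0 | hkpos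
  · rw [hk0, zero_add]
    exact Matrix.rank_le_card_width _
  -- `adjugate G = t ^ (k₀ - 1) • M`
  have claimA : ∀ j : ℕ, j + 1 ≤ k₀ → ∃ M : Matrix n n R, G.adjugate = t ^ j • M := by
    intro j
    induction j with
    | zero => intro _; exact ⟨G.adjugate, by simp⟩
    | succ j ih =>
      intro hj
      obtain ⟨M, hM⟩ := ih (by omega)
      have hGM : G * M = (t ^ (k₀ - j) * w) • (1 : Matrix n n R) := by
        apply smul_matrix_cancel (pow_ne_zero j ht0)
        rw [← Matrix.mul_smul, ← hM, Matrix.mul_adjugate, hw, smul_smul, ← mul_assoc,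
          ← pow_add]
        congr 3
        omega
      have hdiv : ∀ i c, t ∣ M i c := by
        intro i c
        refine ha (fun i => M i c) (fun i' => ?_) i
        have h1 : (G *ᵥ fun i => M i c) i' = (G * M) i' c := by
          simp [Matrix.mulVec, Matrix.mul_apply, dotProduct]
        rw [h1, hGM, Matrix.smul_apply, smul_eq_mul]
        have h2 : t ^ 2 ∣ t ^ (k₀ - j) := pow_dvd_pow t (by omega)
        exact Dvd.dvd.mul_right (Dvd.dvd.mul_right h2 _) _
      choose M' hM' using hdiv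
      refine ⟨Matrix.of M', ?_⟩
      rw [hM, pow_succ, mul_smul]
      congr 1
      ext i c
      rw [Matrix.smul_apply, smul_eq_mul, Matrix.of_apply]
      exact hM' i c
  obtain ⟨M, hM⟩ := claimA (k₀ - 1) (by omega)
  have hMG : M * G = (t * w) • (1 : Matrix n n R) := by
    apply smul_matrix_cancel (pow_ne_zero (k₀ - 1) ht0)
    rw [← Matrix.smul_mul, ← hM, Matrix.adjugate_mul, hw, smul_smul, ← mul_assoc, ← pow_succ]
    congr 3
    omega
  have hMGbar : M.map φ * G.map φ = 0 := by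
    rw [← Matrix.map_mul, hMG]
    ext i j
    have h1 : φ (t * w) = 0 := (hker _).mpr (Dvd.intro _ rfl)
    simp [Matrix.map_apply, Matrix.smul_apply, h1]
  have hdvd : t ^ (G.map φ).rank ∣ M.det := by
    have := H31.pow_dvd_det_of_ker φ hφ t (fun a h => (hker a).mp h) hunit M
      (LinearMap.range (G.map φ).mulVecLin) (by
        rintro v ⟨v', rfl⟩
        rw [Matrix.mulVecLin_apply, Matrix.mulVec_mulVec, hMGbar, Matrix.zero_mulVec])
    exact this
  -- determinants
  have hdet : (t ^ (k₀ - 1)) ^ Fintype.card n * M.det = (t ^ k₀ * w) ^ (Fintype.card n - 1) := by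
    rw [← Matrix.det_smul, ← hM, Matrix.det_adjugate, hw]
  by_contra hcon
  push Not at hcon
  obtain ⟨q, hq⟩ := hdvd
  -- n ≥ 1
  have hn : 0 < Fintype.card n := by
    rcases Nat.eq_zero_or_pos (Fintype.card n) with h0 | h
    · exfalso
      have : IsEmpty n := Fintype.card_eq_zero_iff.mp h0
      have h1 : G.det = 1 := Matrix.det_isEmpty
      have h2 : t ∣ G.det := by
        rw [hw]; exact Dvd.dvd.mul_right (dvd_pow_self t (by omega)) w
      rw [h1] at h2
      exact htprime.not_isUnit (isUnit_of_dvd_one h2)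
    · exact h
  obtain ⟨a, ha'⟩ : ∃ a, k₀ = a + 1 := ⟨k₀ - 1, by omega⟩
  obtain ⟨b, hb⟩ : ∃ b, Fintype.card n = b + 1 := ⟨Fintype.card n - 1, by omega⟩
  rw [hb, ha', hq] at hdet
  simp only [Nat.add_sub_cancel] at hdet
  -- t^(a*(b+1) + r) * q = t^((a+1)*b) * w^b,   with (a+1)*b < a*(b+1) + r
  have hlt : (a + 1) * b + 1 ≤ a * (b + 1) + (G.map φ).rank := by
    rw [hb, ha'] at hcon
    nlinarith
  have h1 : t ^ ((a + 1) * b + 1) ∣ t ^ ((a + 1) * b) * w ^ b := by
    have h2 : t ^ ((a + 1) * b) * w ^ b = t ^ (a * (b + 1) + (G.map φ).rank) * q := by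
      rw [← pow_mul, mul_pow, ← pow_mul] at hdet
      rw [← hdet, pow_add]; ring
    rw [h2]
    exact Dvd.dvd.mul_right (pow_dvd_pow t hlt) _
  rw [pow_succ] at h1
  have h3 : t ∣ w ^ b := (mul_dvd_mul_iff_left (pow_ne_zero _ ht0)).mp h1
  exact hwt (htprime.dvd_of_dvd_pow h3)

end Abstract

/-- A nonzero idempotent matrix over a field of characteristic zero has nonzero trace. -/
theorem eq_zero_of_idem_of_trace_eq_zero {κ : Type*} [Field κ] [CharZero κ] {μ : Type*}
    [Fintype μ] [DecidableEq μ] (A : Matrix μ μ κ) (hA : A * A = A) (htr : A.trace = 0) :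
    A = 0 := by
  have hid : IsIdempotentElem (Matrix.toLin' A) := by
    rw [IsIdempotentElem, Module.End.mul_eq_comp, ← Matrix.toLin'_mul, hA]
  have := (LinearMap.IsIdempotentElem.trace_eq_zero_iff hid).mp
    (by rw [Matrix.trace_toLin'_eq]; exact htr)
  exact (LinearEquiv.map_eq_zero_iff Matrix.toLin').mp this

end Fermat.Agent.S18.H7
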