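/-
S18 / Program J, leaf C1-D1e (helper7): the TAME DISCRIMINANT BOUND in place language.

`K` algebraically closed of characteristic zero, `F / K(x)` finite, `c : K`, the fibre
`{P | 0 < P.ord (x - c)}` finite, `θ` a local integral basis at `c` (a `K(x)`-basis of `F`
consisting of functions regular over `c`, such that the coordinates of every function regular
over `c` are regular at `c`).  Then for every place `P` over `c`

  `ord_P (det Tr(θ_i θ_j)) + #{places over c} * ord_P (x - c) ≤ [F : K(x)] * ord_P (x - c)`,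

i.e. `ord_{x = c} disc ≤ μ - #{places over c}`  (`tame_bound`, `tame_bound_poly`).

The proof is the "adjugate count" `tame_count` (`TameAbs.lean`) for the Gram matrix over the
local ring `R_c = {r ∈ K(x) regular at c}`:
(a) tameness `Tr(Y O_c) ⊆ t² R_c ⇒ Y ∈ t O_c` and (b) `(Tr(f_P f_Q))_{P,Q}` is diagonal with unit
diagonal modulo `t`, both from "idempotent-like" functions `f_P` (`≡ 1` at `P`, `≡ 0` at the
other places over `c`, idempotent modulo `t = x - c`) and the fact that a nonzero idempotent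
matrix over a field of characteristic zero has nonzero trace.
-/
import Mathlib
import Fermat.Prelude.Def_AlgebraicCurve_DivisorClassGroup
import Fermat.Agent.S24.Residue
import Fermat.Agent.S24.Ord
import Fermat.Agent.S18.H74.Setup
import Fermat.Agent.S18.H7.TameAbs

set_option autoImplicit false

open AlgebraicCurve IntermediateField Polynomial

noncomputable section

namespace Fermat.Agent.S18.H7

open Fermat.Agent.S24

variable {K F : Type*} [Field K] [Field F] [Algebra K F]

/-! ### Valuation-ring helpers for a place -/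

section PlaceHelpers

variable (v : Place K F)

theorem reg_iff (f : F) : f ∈ v.toValuationSubring ↔ 0 ≤ v.ord f := by
  by_cases hf : f = 0
  · subst hf; simp
  · exact H52.mem_iff_ord_nonneg v hf

theorem van_iff (f : F) : f ∈ v.toValuationSubring.nonunits ↔ f = 0 ∨ 0 < v.ord f := by
  by_cases hf : f = 0
  · subst hf; simp [v.toValuationSubring.nonunits.zero_mem]
  · rw [← H94.ord_pos_iff_mem_nonunits v hf]; simp [hf]

theorem van_of_ord_pos {f : F} (h : 0 < v.ord f) : f ∈ v.toValuationSubring.nonunits :=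
  (van_iff v f).mpr (Or.inr h)

theorem reg_of_van {f : F} (h : f ∈ v.toValuationSubring.nonunits) : f ∈ v.toValuationSubring :=
  ValuationSubring.nonunits_subset h

theorem van_mul_reg {f g : F} (hf : f ∈ v.toValuationSubring.nonunits)
    (hg : g ∈ v.toValuationSubring) : f * g ∈ v.toValuationSubring.nonunits := by
  rw [ValuationSubring.mem_nonunits_iff_or] at hf ⊢
  by_cases hfg : f * g = 0
  · exact Or.inl hfg
  right
  intro h
  have hf0 : f ≠ 0 := left_ne_zero_of_mul hfg
  have hg0 : g ≠ 0 := right_ne_zero_of_mul hfg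
  apply hf.resolve_left hf0
  have : f⁻¹ = g * (f * g)⁻¹ := by field_simp
  rw [this]
  exact v.toValuationSubring.mul_mem _ _ hg h

theorem reg_mul_van {f g : F} (hf : f ∈ v.toValuationSubring)
    (hg : g ∈ v.toValuationSubring.nonunits) : f * g ∈ v.toValuationSubring.nonunits := by
  rw [mul_comm]; exact van_mul_reg v hg hf

theorem inv_reg_of_not_van {f : F} (hf : f ∉ v.toValuationSubring.nonunits) :
    f⁻¹ ∈ v.toValuationSubring := by
  rw [ValuationSubring.mem_nonunits_iff_or] at hf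
  push Not at hf
  exact hf.2

theorem inv_van_of_not_reg {f : F} (hf : f ∉ v.toValuationSubring) :
    f⁻¹ ∈ v.toValuationSubring.nonunits :=
  (ValuationSubring.inv_mem_nonunits_iff (A := v.toValuationSubring)).mpr (Or.inr hf)

theorem one_not_van : (1 : F) ∉ v.toValuationSubring.nonunits := by
  rw [ValuationSubring.mem_nonunits_iff_or]
  push Not
  exact ⟨one_ne_zero, by rw [inv_one]; exact v.toValuationSubring.one_mem⟩

theorem const_reg (a : K) : algebraMap K F a ∈ v.toValuationSubring := v.algebraMap_mem' a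

theorem const_eq_zero_of_van {a : K} (h : algebraMap K F a ∈ v.toValuationSubring.nonunits) :
    a = 0 := by
  rw [ValuationSubring.mem_nonunits_iff_or] at h
  rcases h with h | h
  · simpa using h
  · exfalso; apply h
    rw [← map_inv₀]; exact v.algebraMap_mem' _

theorem pow_van {f : F} (hf : f ∈ v.toValuationSubring.nonunits) {n : ℕ} (hn : n ≠ 0) :
    f ^ n ∈ v.toValuationSubring.nonunits := by
  obtain ⟨m, rfl⟩ : ∃ m, n = m + 1 := ⟨n - 1, by omega⟩
  rw [pow_succ]
  exact reg_mul_van v (v.toValuationSubring.pow_mem (reg_of_van v hf) m) hf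

/-- `h ^ N / Y` is regular if `h` vanishes and `ord Y ≤ N`. -/
theorem pow_div_reg {h Y : F} (hh : h ∈ v.toValuationSubring.nonunits) (hY : Y ≠ 0) {N : ℕ}
    (hN : v.ord Y ≤ N) (hN1 : N ≠ 0) : h ^ N / Y ∈ v.toValuationSubring := by
  by_cases hh0 : h = 0
  · rw [hh0, zero_pow hN1, zero_div]; exact v.toValuationSubring.zero_mem
  have h1 : 0 < v.ord h := ((van_iff v h).mp hh).resolve_left hh0
  rw [reg_iff, S24.ord_div v (pow_ne_zero N hh0) hY, S24.ord_pow]
  have : (N : ℤ) * 1 ≤ N * v.ord h := by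
    apply mul_le_mul_of_nonneg_left (by omega) (by positivity)
  omega

/-- Distinct places are incomparable. -/
theorem exists_reg_not_reg {v w : Place K F} (h : v ≠ w) :
    ∃ u : F, u ∈ v.toValuationSubring ∧ u ∉ w.toValuationSubring := by
  by_contra hcon
  push Not at hcon
  apply h
  obtain ⟨π, hπ⟩ := S24.exists_ord_eq_one w
  have hπ0 : π ≠ 0 := by rintro rfl; simp at hπ
  have key := H52.mem_iff_of_le v (H52.isAddVal_ord w)
    (fun f _ hf => (reg_iff w f).mp (hcon f hf)) ⟨π, hπ0, by rw [hπ]; exact one_ne_zero⟩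
  apply S24.place_ext_of_ord
  intro f hf
  rw [← reg_iff v f]
  exact key f hf

end PlaceHelpers

/-! ### The fibre over `c`: the rings `O_c ⊆ F` and `R_c ⊆ K(x)` -/

section Fibre

variable (x : F) (c : K)

/-- Functions regular at all places over `c`. -/
def Oc : Subring F where
  carrier := {f | ∀ P : Place K F, 0 < P.ord (x - algebraMap K F c) → f ∈ P.toValuationSubring}
  mul_mem' := fun ha hb P hP => P.toValuationSubring.mul_mem _ _ (ha P hP) (hb P hP)
  one_mem' := fun P _ => P.toValuationSubring.one_mem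
  add_mem' := fun ha hb P hP => P.toValuationSubring.add_mem _ _ (ha P hP) (hb P hP)
  zero_mem' := fun P _ => P.toValuationSubring.zero_mem
  neg_mem' := fun ha P hP => P.toValuationSubring.neg_mem _ (ha P hP)

theorem mem_Oc {f : F} : f ∈ Oc x c ↔
    ∀ P : Place K F, 0 < P.ord (x - algebraMap K F c) → f ∈ P.toValuationSubring := Iff.rfl

theorem mem_Oc_iff_ord {f : F} : f ∈ Oc x c ↔
    ∀ P : Place K F, 0 < P.ord (x - algebraMap K F c) → 0 ≤ P.ord f := by
  simp only [mem_Oc, reg_iff]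

/-- Elements of `K(x)` regular at `c`. -/
def Rc : Subring K⟮x⟯ := (Oc x c).comap (algebraMap K⟮x⟯ F)

theorem mem_Rc {r : K⟮x⟯} : r ∈ Rc x c ↔ (r : F) ∈ Oc x c := Iff.rfl

/-- `t = x - c` as an element of `K(x)`. -/
def tK : K⟮x⟯ := AdjoinSimple.gen K x - algebraMap K K⟮x⟯ c

@[simp] theorem coe_tK : ((tK x c : K⟮x⟯) : F) = x - algebraMap K F c := by
  simp [tK]

theorem const_mem_Oc (a : K) : algebraMap K F a ∈ Oc x c := fun P _ => const_reg P a

theorem const_mem_Rc (a : K) : algebraMap K K⟮x⟯ a ∈ Rc x c := by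
  rw [mem_Rc]; exact const_mem_Oc x c a

theorem t_mem_Oc : x - algebraMap K F c ∈ Oc x c :=
  fun P hP => reg_of_van P (van_of_ord_pos P hP)

theorem tK_mem_Rc : tK x c ∈ Rc x c := by
  rw [mem_Rc, coe_tK]; exact t_mem_Oc x c

variable {x c}

theorem t_ne_zero {P : Place K F} (hP : 0 < P.ord (x - algebraMap K F c)) :
    x - algebraMap K F c ≠ 0 := by
  intro h; rw [h] at hP; simp at hP

theorem tK_ne_zero {P : Place K F} (hP : 0 < P.ord (x - algebraMap K F c)) : tK x c ≠ 0 := by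
  intro h
  apply t_ne_zero hP
  rw [← coe_tK, h]; simp

theorem ord_aeval {P : Place K F} (hP : 0 < P.ord (x - algebraMap K F c)) {p : K[X]}
    (hp : p ≠ 0) :
    aeval x p ≠ 0 ∧
      P.ord (aeval x p) = (p.rootMultiplicity c : ℤ) * P.ord (x - algebraMap K F c) := by
  have hp' : p.comp (X + C c) ≠ 0 := comp_X_add_C_ne_zero_iff.mpr hp
  have h := (H52.isAddVal_ord P).map_aeval (K := K)
    (fun a ha => S24.ord_algebraMap P (by rintro rfl; simp at ha)) hP (t_ne_zero hP) hp'
  have he : aeval (x - algebraMap K F c) (p.comp (X + C c)) = aeval x p := by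
    rw [aeval_comp]; simp
  rw [he, ← rootMultiplicity_eq_rootMultiplicity] at h
  exact h

variable (x c) in
/-- Elements of `K(x)` have the same order at `c` at every place over `c`, up to the
ramification index. -/
theorem exists_ord_eq (r : K⟮x⟯) (hr : r ≠ 0) :
    ∃ k : ℤ, ∀ P : Place K F, 0 < P.ord (x - algebraMap K F c) →
      P.ord (r : F) = k * P.ord (x - algebraMap K F c) := by
  obtain ⟨p, q, hpq⟩ := (mem_adjoin_simple_iff K (r : F)).mp r.2
  have hr' : (r : F) ≠ 0 := by simpa using hr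
  have hp : p ≠ 0 := by rintro rfl; apply hr'; rw [hpq]; simp
  have hq : q ≠ 0 := by rintro rfl; apply hr'; rw [hpq]; simp
  refine ⟨(p.rootMultiplicity c : ℤ) - q.rootMultiplicity c, fun P hP => ?_⟩
  obtain ⟨hp1, hp2⟩ := ord_aeval hP hp
  obtain ⟨hq1, hq2⟩ := ord_aeval hP hq
  rw [hpq, S24.ord_div P hp1 hq1, hp2, hq2]; ring

theorem mem_Rc_of_reg {P₀ : Place K F} (hP₀ : 0 < P₀.ord (x - algebraMap K F c)) {r : K⟮x⟯}
    (h : (r : F) ∈ P₀.toValuationSubring) : r ∈ Rc x c := by
  by_cases hr : r = 0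
  · subst hr; exact (Rc x c).zero_mem
  obtain ⟨k, hk⟩ := exists_ord_eq x c r hr
  have h0 : 0 ≤ k := by
    have := (reg_iff P₀ _).mp h
    rw [hk P₀ hP₀] at this
    by_contra hcon
    push Not at hcon
    nlinarith
  rw [mem_Rc, mem_Oc_iff_ord]
  intro P hP
  rw [hk P hP]
  exact mul_nonneg h0 hP.le

theorem exists_eq_tK_mul_of_van {P₀ : Place K F} (hP₀ : 0 < P₀.ord (x - algebraMap K F c))
    {r : K⟮x⟯} (h : (r : F) ∈ P₀.toValuationSubring.nonunits) :
    ∃ q ∈ Rc x c, r = tK x c * q := by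
  by_cases hr : r = 0
  · exact ⟨0, (Rc x c).zero_mem, by simp [hr]⟩
  obtain ⟨k, hk⟩ := exists_ord_eq x c r hr
  have hr' : (r : F) ≠ 0 := by simpa using hr
  have h1 : 0 < P₀.ord (r : F) := ((van_iff P₀ _).mp h).resolve_left hr'
  rw [hk P₀ hP₀] at h1
  have hk1 : 1 ≤ k := by
    by_contra hcon
    push Not at hcon
    nlinarith
  have ht0 : tK x c ≠ 0 := tK_ne_zero hP₀
  refine ⟨r / tK x c, ?_, by field_simp⟩
  rw [mem_Rc, mem_Oc_iff_ord]
  intro P hP
  rw [IntermediateField.coe_div, coe_tK, S24.ord_div P hr' (t_ne_zero hP), hk P hP]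
  nlinarith

theorem inv_mem_Rc_of_not_van {P₀ : Place K F} (hP₀ : 0 < P₀.ord (x - algebraMap K F c))
    {r : K⟮x⟯} (h : (r : F) ∉ P₀.toValuationSubring.nonunits) : r⁻¹ ∈ Rc x c := by
  apply mem_Rc_of_reg hP₀
  rw [IntermediateField.coe_inv]
  exact inv_reg_of_not_van P₀ h

variable (x c) in
/-- `t = x - c` as an element of `R_c`. -/
def tR : Rc x c := ⟨tK x c, tK_mem_Rc x c⟩

theorem tR_dvd_iff {r : Rc x c} :
    tR x c ∣ r ↔ ∃ q ∈ Rc x c, (r : K⟮x⟯) = tK x c * q := by
  constructor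
  · rintro ⟨q, rfl⟩; exact ⟨q, q.2, rfl⟩
  · rintro ⟨q, hq, h⟩; exact ⟨⟨q, hq⟩, Subtype.ext h⟩

theorem tR_ne_zero {P₀ : Place K F} (hP₀ : 0 < P₀.ord (x - algebraMap K F c)) : tR x c ≠ 0 := by
  intro h
  exact tK_ne_zero hP₀ (congrArg Subtype.val h)

theorem isUnit_of_not_dvd {P₀ : Place K F} (hP₀ : 0 < P₀.ord (x - algebraMap K F c))
    {a : Rc x c} (h : ¬ tR x c ∣ a) : IsUnit a := by
  have h1 : ((a : K⟮x⟯) : F) ∉ P₀.toValuationSubring.nonunits :=
    fun hv => h (tR_dvd_iff.mpr (exists_eq_tK_mul_of_van hP₀ hv))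
  have h2 := inv_mem_Rc_of_not_van hP₀ h1
  have ha0 : (a : K⟮x⟯) ≠ 0 := by
    intro h0
    apply h
    rw [show a = 0 from Subtype.ext h0]
    exact dvd_zero _
  exact IsUnit.of_mul_eq_one ⟨(a : K⟮x⟯)⁻¹, h2⟩ (Subtype.ext (by simp [ha0]))

theorem exists_not_pow_dvd {P₀ : Place K F} (hP₀ : 0 < P₀.ord (x - algebraMap K F c))
    {a : Rc x c} (ha : a ≠ 0) : ∃ k : ℕ, ¬ tR x c ^ k ∣ a := by
  refine ⟨(P₀.ord ((a : K⟮x⟯) : F)).toNat + 1, ?_⟩
  rintro ⟨q, hq⟩
  have ht0 := t_ne_zero hP₀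
  have h1 : ((a : K⟮x⟯) : F) = (x - algebraMap K F c) ^
      ((P₀.ord ((a : K⟮x⟯) : F)).toNat + 1) * ((q : K⟮x⟯) : F) := by
    have := congrArg (fun z : Rc x c => ((z : K⟮x⟯) : F)) hq
    simpa [tR] using this
  have ha0 : ((a : K⟮x⟯) : F) ≠ 0 := by
    intro h0
    apply ha
    apply Subtype.ext
    simpa using h0
  have hq0 : ((q : K⟮x⟯) : F) ≠ 0 := by
    intro h0
    rw [h0, mul_zero] at h1
    exact ha0 h1
  have h2 := (reg_iff P₀ _).mp (q.2 P₀ hP₀)
  have h3 := congrArg P₀.ord h1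
  rw [P₀.ord_mul (pow_ne_zero _ ht0) hq0, S24.ord_pow] at h3
  have h4 := Int.self_le_toNat (P₀.ord ((a : K⟮x⟯) : F))
  have h5 : (algebraMap K⟮x⟯ F) ↑q = ((q : K⟮x⟯) : F) := rfl
  rw [h5] at h2
  push_cast at h3
  nlinarith

theorem isMaximal_span_tR {P₀ : Place K F} (hP₀ : 0 < P₀.ord (x - algebraMap K F c)) :
    (Ideal.span {tR x c}).IsMaximal := by
  rw [Ideal.isMaximal_iff]
  refine ⟨?_, fun J a _ ha haJ => ?_⟩
  · rw [Ideal.mem_span_singleton]
    intro h
    obtain ⟨q, hq, h1⟩ := tR_dvd_iff.mp h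
    have h2 : (1 : F) = (x - algebraMap K F c) * (q : F) := by
      have := congrArg (fun z : K⟮x⟯ => (z : F)) h1
      simpa using this
    apply one_not_van P₀
    rw [h2]
    exact van_mul_reg P₀ (van_of_ord_pos P₀ hP₀) (hq P₀ hP₀)
  · rw [Ideal.mem_span_singleton] at ha
    have hu := isUnit_of_not_dvd hP₀ ha
    rw [Ideal.eq_top_of_isUnit_mem J haJ hu]
    exact Submodule.mem_top

variable (x c) in
/-- The constants inside `R_c`. -/
def constHom : K →+* Rc x c :=
  (algebraMap K K⟮x⟯).codRestrict (Rc x c) (fun a => const_mem_Rc x c a)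

end Fibre

/-! ### A local integral basis: coordinates, multiplication matrices, traces -/

section Basis

attribute [local instance] Ideal.Quotient.field

variable {x : F} {c : K} {μ : ℕ} (b : Module.Basis (Fin μ) K⟮x⟯ F)

theorem tK_smul (g : F) : tK x c • g = (x - algebraMap K F c) * g := by
  rw [Algebra.smul_def, IntermediateField.algebraMap_apply, coe_tK]

theorem sum_mem_Oc (hθ : ∀ i, b i ∈ Oc x c) (r : Fin μ → K⟮x⟯) (hr : ∀ i, r i ∈ Rc x c) :
    ∑ i, r i • b i ∈ Oc x c := by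
  refine Subring.sum_mem _ fun i _ => ?_
  rw [Algebra.smul_def, IntermediateField.algebraMap_apply]
  exact (Oc x c).mul_mem (hr i) (hθ i)

include b in
theorem leftMul_mem (hθ : ∀ i, b i ∈ Oc x c) (hloc : ∀ f ∈ Oc x c, ∀ i, b.repr f i ∈ Rc x c)
    {f : F} (hf : f ∈ Oc x c) (i j : Fin μ) : Algebra.leftMulMatrix b f i j ∈ Rc x c := by
  rw [Algebra.leftMulMatrix_eq_repr_mul]
  exact hloc _ ((Oc x c).mul_mem hf (hθ j)) i

theorem trace_mem (hθ : ∀ i, b i ∈ Oc x c) (hloc : ∀ f ∈ Oc x c, ∀ i, b.repr f i ∈ Rc x c)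
    {f : F} (hf : f ∈ Oc x c) : Algebra.trace K⟮x⟯ F f ∈ Rc x c := by
  rw [Algebra.trace_eq_matrix_trace b, Matrix.trace]
  exact Subring.sum_mem _ fun i _ => leftMul_mem b hθ hloc hf i i

theorem trace_t_mul (g : F) :
    Algebra.trace K⟮x⟯ F ((x - algebraMap K F c) * g) = tK x c * Algebra.trace K⟮x⟯ F g := by
  rw [← tK_smul, map_smul, smul_eq_mul]

theorem leftMul_t_mul (g : F) :
    Algebra.leftMulMatrix b ((x - algebraMap K F c) * g) = tK x c • Algebra.leftMulMatrix b g := by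
  rw [← tK_smul, map_smul]

/-- The trace of an element of `O_c` which is a nonzero idempotent modulo `t` is a unit of
`R_c` (characteristic zero). -/
theorem trace_not_dvd_of_idem [CharZero K] {P₀ : Place K F}
    (hP₀ : 0 < P₀.ord (x - algebraMap K F c))
    (hθ : ∀ i, b i ∈ Oc x c) (hloc : ∀ f ∈ Oc x c, ∀ i, b.repr f i ∈ Rc x c)
    {f : F} (hf : f ∈ Oc x c) (hidem : ∃ g ∈ Oc x c, f * f - f = (x - algebraMap K F c) * g)
    (hnz : ¬ ∃ g ∈ Oc x c, f = (x - algebraMap K F c) * g) :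
    ¬ ∃ q ∈ Rc x c, Algebra.trace K⟮x⟯ F f = tK x c * q := by
  classical
  have := isMaximal_span_tR hP₀
  have : CharZero (Rc x c ⧸ Ideal.span {tR x c}) :=
    charZero_of_injective_ringHom
      (f := (Ideal.Quotient.mk (Ideal.span {tR x c})).comp (constHom x c)) (RingHom.injective _)
  set φ := Ideal.Quotient.mk (Ideal.span {tR x c}) with hφ
  have hφ0 : ∀ a : Rc x c, φ a = 0 ↔ tR x c ∣ a := fun a => by
    rw [hφ, Ideal.Quotient.eq_zero_iff_mem, Ideal.mem_span_singleton]
  obtain ⟨g, hg, hfg⟩ := hidem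
  set M : Matrix (Fin μ) (Fin μ) (Rc x c) :=
    fun i j => ⟨Algebra.leftMulMatrix b f i j, leftMul_mem b hθ hloc hf i j⟩ with hM
  set N : Matrix (Fin μ) (Fin μ) (Rc x c) :=
    fun i j => ⟨Algebra.leftMulMatrix b g i j, leftMul_mem b hθ hloc hg i j⟩ with hN
  have hMmap : M.map (Rc x c).subtype = Algebra.leftMulMatrix b f := by
    ext i j; rfl
  have hNmap : N.map (Rc x c).subtype = Algebra.leftMulMatrix b g := by
    ext i j; rfl
  have hMM : M * M - M = tR x c • N := by
    apply Matrix.map_injective (Subring.subtype_injective (Rc x c))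
    change (M * M - M).map (Rc x c).subtype = (tR x c • N).map (Rc x c).subtype
    rw [Matrix.map_sub (f := (Rc x c).subtype) (fun a b => map_sub _ a b), Matrix.map_mul,
      hMmap, ← map_mul, ← map_sub, hfg, leftMul_t_mul, ← hNmap]
    ext i j
    simp [tR]
  have hidemM : M.map φ * M.map φ = M.map φ := by
    have h1 : (M * M - M).map φ = (tR x c • N).map φ := by rw [hMM]
    rw [Matrix.map_sub (f := φ) (fun a b => map_sub _ a b), Matrix.map_mul] at h1
    have h2 : (tR x c • N).map φ = 0 := by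
      ext i j
      simp only [Matrix.map_apply, Matrix.smul_apply, smul_eq_mul, map_mul, Matrix.zero_apply]
      rw [(hφ0 _).mpr dvd_rfl, zero_mul]
    rw [h2] at h1
    exact sub_eq_zero.mp h1
  rintro ⟨q, hq, htr⟩
  have htrace : (M.map φ).trace = 0 := by
    have h1 : (M.map φ).trace = φ M.trace := by
      simp [Matrix.trace, map_sum]
    rw [h1, hφ0]
    refine tR_dvd_iff.mpr ⟨q, hq, ?_⟩
    rw [← htr, Algebra.trace_eq_matrix_trace b, Matrix.trace, Matrix.trace,
      AddSubmonoidClass.coe_finsetSum]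
    rfl
  have hzero : M.map φ = 0 := eq_zero_of_idem_of_trace_eq_zero _ hidemM htrace
  have hdiv : ∀ i j, ∃ q ∈ Rc x c, Algebra.leftMulMatrix b f i j = tK x c * q := by
    intro i j
    have h1 : φ (M i j) = 0 := by
      have := congrFun (congrFun hzero i) j
      simpa using this
    exact tR_dvd_iff.mp ((hφ0 _).mp h1)
  choose Q hQ hQ' using hdiv
  apply hnz
  have h1 := hloc 1 (Oc x c).one_mem
  refine ⟨∑ i, (∑ j, Q i j * b.repr 1 j) • b i, sum_mem_Oc b hθ _ (fun i =>
    Subring.sum_mem _ fun j _ => (Rc x c).mul_mem (hQ i j) (h1 j)), ?_⟩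
  have h2 : ∀ i, b.repr f i = tK x c * ∑ j, Q i j * b.repr 1 j := by
    intro i
    have h3 := congrFun (Algebra.leftMulMatrix_mulVec_repr b f 1) i
    rw [mul_one] at h3
    rw [← h3, Matrix.mulVec, dotProduct, Finset.mul_sum]
    refine Finset.sum_congr rfl fun j _ => ?_
    rw [hQ' i j, mul_assoc]
  conv_lhs => rw [← b.sum_repr f]
  rw [← tK_smul, Finset.smul_sum]
  refine Finset.sum_congr rfl fun i _ => ?_
  rw [h2 i, mul_smul]

end Basis

/-! ### Idempotent-like functions -/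

section Idem

variable {x : F} {c : K}

/-- Residue field `K`: an element regular at `P` is congruent to a constant. -/
theorem exists_value [IsAlgClosed K] [Algebra.IsAlgebraic K⟮x⟯ F] (P : Place K F) {u : F}
    (hu : u ∈ P.toValuationSubring) :
    ∃ a : K, u - algebraMap K F a ∈ P.toValuationSubring.nonunits :=
  H94.exists_sub_mem_nonunits P.toValuationSubring P.algebraMap_mem' P.ne_top' x
    (H94.isAlgebraic_adjoin x) hu

/-- Separation of two places over `c` by a function regular over `c`. -/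
theorem exists_sep [IsAlgClosed K] [Algebra.IsAlgebraic K⟮x⟯ F] [Infinite K]
    (hfin : {P : Place K F | 0 < P.ord (x - algebraMap K F c)}.Finite)
    {P₀ P₁ : Place K F} (hP₁ : 0 < P₁.ord (x - algebraMap K F c)) (h01 : P₁ ≠ P₀) :
    ∃ h ∈ Oc x c, h - 1 ∈ P₀.toValuationSubring.nonunits ∧
      h ∈ P₁.toValuationSubring.nonunits := by
  obtain ⟨u, hu1, hu0⟩ := exists_reg_not_reg h01
  obtain ⟨a, ha⟩ := exists_value (x := x) P₁ hu1
  set u₁ := u - algebraMap K F a with hu₁
  have hu₁0 : u₁ ∉ P₀.toValuationSubring := by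
    intro h
    apply hu0
    have : u = u₁ + algebraMap K F a := by rw [hu₁]; ring
    rw [this]
    exact P₀.toValuationSubring.add_mem _ _ h (const_reg P₀ a)
  have hB : {l : K | ∃ P : Place K F, 0 < P.ord (x - algebraMap K F c) ∧
      algebraMap K F l + u₁ ∈ P.toValuationSubring.nonunits}.Finite := by
    have : {l : K | ∃ P : Place K F, 0 < P.ord (x - algebraMap K F c) ∧
        algebraMap K F l + u₁ ∈ P.toValuationSubring.nonunits}
        = ⋃ P ∈ {P : Place K F | 0 < P.ord (x - algebraMap K F c)},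
          {l : K | algebraMap K F l + u₁ ∈ P.toValuationSubring.nonunits} := by
      ext l; simp
    rw [this]
    refine hfin.biUnion fun P _ => Set.Subsingleton.finite ?_
    intro l hl l' hl'
    have h1 : algebraMap K F (l - l') ∈ P.toValuationSubring.nonunits := by
      have := P.toValuationSubring.nonunits.sub_mem hl hl'
      rwa [add_sub_add_right_eq_sub, ← map_sub] at this
    exact sub_eq_zero.mp (const_eq_zero_of_van P h1)
  obtain ⟨l, hl⟩ := hB.infinite_compl.nonempty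
  have hl' : ∀ P : Place K F, 0 < P.ord (x - algebraMap K F c) →
      algebraMap K F l + u₁ ∉ P.toValuationSubring.nonunits := fun P hP h => hl ⟨P, hP, h⟩
  have hu₁ne : u₁ ≠ 0 := fun h => hu₁0 (h ▸ P₀.toValuationSubring.zero_mem)
  have hlu : algebraMap K F l + u₁ ≠ 0 := by
    intro h
    apply hu₁0
    have : u₁ = -algebraMap K F l := by linear_combination h
    rw [this]
    exact P₀.toValuationSubring.neg_mem _ (const_reg P₀ l)
  have key : ∀ P : Place K F, 0 < P.ord (x - algebraMap K F c) →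
      (algebraMap K F l + u₁)⁻¹ ∈ P.toValuationSubring :=
    fun P hP => inv_reg_of_not_van P (hl' P hP)
  have key2 : ∀ P : Place K F, u₁ ∉ P.toValuationSubring →
      (1 + algebraMap K F l * u₁⁻¹)⁻¹ ∈ P.toValuationSubring := by
    intro P hu
    apply inv_reg_of_not_van
    intro h
    apply one_not_van P
    have h2 := reg_mul_van P (const_reg P l) (inv_van_of_not_reg P hu)
    have := P.toValuationSubring.nonunits.sub_mem h h2
    simpa using this
  have hrew : u₁ / (algebraMap K F l + u₁) = (1 + algebraMap K F l * u₁⁻¹)⁻¹ := by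
    have h3 : 1 + algebraMap K F l * u₁⁻¹ = (algebraMap K F l + u₁) / u₁ := by
      field_simp
      ring
    rw [h3, inv_div]
  refine ⟨u₁ / (algebraMap K F l + u₁), ?_, ?_, ?_⟩
  · intro P hP
    by_cases hu : u₁ ∈ P.toValuationSubring
    · rw [div_eq_mul_inv]
      exact P.toValuationSubring.mul_mem _ _ hu (key P hP)
    · rw [hrew]
      exact key2 P hu
  · have : u₁ / (algebraMap K F l + u₁) - 1
        = (-(algebraMap K F l)) * u₁⁻¹ * (1 + algebraMap K F l * u₁⁻¹)⁻¹ := by
      rw [← hrew]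
      field_simp
      ring
    rw [this]
    exact van_mul_reg P₀ (reg_mul_van P₀ (P₀.toValuationSubring.neg_mem _ (const_reg P₀ l))
      (inv_van_of_not_reg P₀ hu₁0)) (key2 P₀ hu₁0)
  · rw [div_eq_mul_inv]
    exact van_mul_reg P₁ ha (key P₁ hP₁)

/-- A function regular over `c`, `≡ 1` at `P₀` and vanishing at the other places over `c`. -/
theorem exists_sep_all [IsAlgClosed K] [Algebra.IsAlgebraic K⟮x⟯ F] [Infinite K]
    (hfin : {P : Place K F | 0 < P.ord (x - algebraMap K F c)}.Finite)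
    {P₀ : Place K F} (hP₀ : 0 < P₀.ord (x - algebraMap K F c)) :
    ∃ g ∈ Oc x c, g - 1 ∈ P₀.toValuationSubring.nonunits ∧
      ∀ P : Place K F, 0 < P.ord (x - algebraMap K F c) → P ≠ P₀ →
        g ∈ P.toValuationSubring.nonunits := by
  classical
  have key : ∀ S : Finset (Place K F),
      (∀ P ∈ S, 0 < P.ord (x - algebraMap K F c) ∧ P ≠ P₀) →
      ∃ g ∈ Oc x c, g - 1 ∈ P₀.toValuationSubring.nonunits ∧
        ∀ P ∈ S, g ∈ P.toValuationSubring.nonunits := by
    intro S
    induction S using Finset.induction_on with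
    | empty =>
      intro _
      exact ⟨1, (Oc x c).one_mem, by simp [P₀.toValuationSubring.nonunits.zero_mem], by simp⟩
    | insert P₁ S hP₁ ih =>
      intro hS
      obtain ⟨g, hg, hg0, hgS⟩ := ih (fun P hP => hS P (Finset.mem_insert_of_mem hP))
      obtain ⟨hP₁c, hP₁0⟩ := hS P₁ (Finset.mem_insert_self _ _)
      obtain ⟨h, hh, hh0, hh1⟩ := exists_sep hfin hP₁c hP₁0
      refine ⟨g * h, (Oc x c).mul_mem hg hh, ?_, ?_⟩
      · have : g * h - 1 = (g - 1) * h + (h - 1) := by ring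
        rw [this]
        exact P₀.toValuationSubring.nonunits.add_mem (van_mul_reg P₀ hg0 (hh P₀ hP₀)) hh0
      · intro P hP
        rcases Finset.mem_insert.mp hP with rfl | hP'
        · exact reg_mul_van P (hg P hP₁c) hh1
        · exact van_mul_reg P (hgS P hP') (hh P (hS P hP).1)
  obtain ⟨g, hg, hg0, hgS⟩ := key (hfin.toFinset.erase P₀) (fun P hP => by
    rw [Finset.mem_erase, Set.Finite.mem_toFinset] at hP
    exact ⟨hP.2, hP.1⟩)
  exact ⟨g, hg, hg0, fun P hP hne => hgS P (by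
    rw [Finset.mem_erase, Set.Finite.mem_toFinset]
    exact ⟨hne, hP⟩)⟩

/-- **Idempotent-like functions.** -/
theorem exists_idem [IsAlgClosed K] [Algebra.IsAlgebraic K⟮x⟯ F] [Infinite K]
    (hfin : {P : Place K F | 0 < P.ord (x - algebraMap K F c)}.Finite)
    {P₀ : Place K F} (hP₀ : 0 < P₀.ord (x - algebraMap K F c)) {Y : F} (hY : Y ≠ 0) :
    ∃ f ∈ Oc x c, (∃ g ∈ Oc x c, f * f - f = (x - algebraMap K F c) * g) ∧
      f - 1 ∈ P₀.toValuationSubring.nonunits ∧
      ∀ P : Place K F, 0 < P.ord (x - algebraMap K F c) → P ≠ P₀ →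
        f / (x - algebraMap K F c) ∈ P.toValuationSubring ∧ f / Y ∈ P.toValuationSubring := by
  obtain ⟨g, hg, hg0, hgP⟩ := exists_sep_all hfin hP₀
  have ht0 : x - algebraMap K F c ≠ 0 := t_ne_zero hP₀
  set N : ℕ := 1 + ∑ P ∈ hfin.toFinset,
    ((P.ord (x - algebraMap K F c)).toNat + (P.ord Y).toNat) with hN
  have hN1 : N ≠ 0 := by omega
  have hNt : ∀ P : Place K F, 0 < P.ord (x - algebraMap K F c) →
      P.ord (x - algebraMap K F c) ≤ N ∧ P.ord Y ≤ N := by
    intro P hP
    have hmem : P ∈ hfin.toFinset := (Set.Finite.mem_toFinset hfin).mpr hP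
    have h1 := Finset.single_le_sum (f := fun P : Place K F =>
      (P.ord (x - algebraMap K F c)).toNat + (P.ord Y).toNat) (fun _ _ => Nat.zero_le _) hmem
    have h2 := Int.self_le_toNat (P.ord (x - algebraMap K F c))
    have h3 := Int.self_le_toNat (P.ord Y)
    have h4 : (P.ord (x - algebraMap K F c)).toNat + (P.ord Y).toNat ≤ N := by
      rw [hN]; exact le_trans h1 (Nat.le_add_left _ _)
    constructor <;> omega
  set z := 1 - g ^ N with hz
  set f := 1 - z ^ N with hf
  have hzO : z ∈ Oc x c := (Oc x c).sub_mem (Oc x c).one_mem ((Oc x c).pow_mem hg N)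
  have hfO : f ∈ Oc x c := (Oc x c).sub_mem (Oc x c).one_mem ((Oc x c).pow_mem hzO N)
  have hz0 : z ∈ P₀.toValuationSubring.nonunits := by
    have h1 : z = (1 - g) * ∑ i ∈ Finset.range N, g ^ i := by rw [hz, mul_neg_geom_sum]
    rw [h1]
    refine van_mul_reg P₀ ?_ (sum_mem fun i _ => P₀.toValuationSubring.pow_mem (hg P₀ hP₀) i)
    have : 1 - g = -(g - 1) := by ring
    rw [this]
    exact P₀.toValuationSubring.nonunits.neg_mem hg0
  have hf0 : f - 1 ∈ P₀.toValuationSubring.nonunits := by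
    have : f - 1 = -(z ^ N) := by rw [hf]; ring
    rw [this]
    exact P₀.toValuationSubring.nonunits.neg_mem (pow_van P₀ hz0 hN1)
  have hf0t : (f - 1) / (x - algebraMap K F c) ∈ P₀.toValuationSubring := by
    have : (f - 1) / (x - algebraMap K F c) = -(z ^ N / (x - algebraMap K F c)) := by
      rw [hf]; ring
    rw [this]
    exact P₀.toValuationSubring.neg_mem _ (pow_div_reg P₀ hz0 ht0 (hNt P₀ hP₀).1 hN1)
  have hfw : f = g ^ N * ∑ i ∈ Finset.range N, z ^ i := by
    have h1 := mul_neg_geom_sum z N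
    rw [hf, ← h1, hz]; ring
  have hother : ∀ P : Place K F, 0 < P.ord (x - algebraMap K F c) → P ≠ P₀ →
      f / (x - algebraMap K F c) ∈ P.toValuationSubring ∧ f / Y ∈ P.toValuationSubring := by
    intro P hP hne
    have hw : ∑ i ∈ Finset.range N, z ^ i ∈ P.toValuationSubring :=
      sum_mem fun i _ => P.toValuationSubring.pow_mem (hzO P hP) i
    constructor
    · have : f / (x - algebraMap K F c)
          = g ^ N / (x - algebraMap K F c) * ∑ i ∈ Finset.range N, z ^ i := by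
        rw [hfw]; ring
      rw [this]
      exact P.toValuationSubring.mul_mem _ _
        (pow_div_reg P (hgP P hP hne) ht0 (hNt P hP).1 hN1) hw
    · have : f / Y = g ^ N / Y * ∑ i ∈ Finset.range N, z ^ i := by
        rw [hfw]; ring
      rw [this]
      exact P.toValuationSubring.mul_mem _ _
        (pow_div_reg P (hgP P hP hne) hY (hNt P hP).2 hN1) hw
  refine ⟨f, hfO, ⟨f * ((f - 1) / (x - algebraMap K F c)), ?_, by field_simp⟩, hf0, hother⟩
  intro P hP
  by_cases hne : P = P₀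
  · subst hne
    exact P.toValuationSubring.mul_mem _ _ (hfO P hP) hf0t
  · have : f * ((f - 1) / (x - algebraMap K F c))
        = f / (x - algebraMap K F c) * (f - 1) := by ring
    rw [this]
    exact P.toValuationSubring.mul_mem _ _ (hother P hP hne).1
      (P.toValuationSubring.sub_mem (hfO P hP) P.toValuationSubring.one_mem)

theorem not_dvd_of_sub_one_van {P₀ : Place K F} (hP₀ : 0 < P₀.ord (x - algebraMap K F c))
    {f : F} (hf : f - 1 ∈ P₀.toValuationSubring.nonunits) :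
    ¬ ∃ g ∈ Oc x c, f = (x - algebraMap K F c) * g := by
  rintro ⟨g, hg, rfl⟩
  apply one_not_van P₀
  have h1 := van_mul_reg P₀ (van_of_ord_pos P₀ hP₀) (hg P₀ hP₀)
  have := P₀.toValuationSubring.nonunits.sub_mem h1 hf
  simpa using this

end Idem

/-! ### The two hypotheses of the adjugate count, and the bound -/

section Main

attribute [local instance] Ideal.Quotient.field

variable {x : F} {c : K} {μ : ℕ} (b : Module.Basis (Fin μ) K⟮x⟯ F)

theorem trace_mul_eq_sum (f g : F) :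
    Algebra.trace K⟮x⟯ F (f * g) =
      ∑ i, ∑ j, b.repr f i * Algebra.trace K⟮x⟯ F (b i * b j) * b.repr g j := by
  conv_lhs => rw [← b.sum_repr f, ← b.sum_repr g]
  rw [Finset.sum_mul_sum, map_sum]
  refine Finset.sum_congr rfl fun i _ => ?_
  rw [map_sum]
  refine Finset.sum_congr rfl fun j _ => ?_
  rw [smul_mul_smul_comm, map_smul, smul_eq_mul]
  ring

theorem trace_basis_mul (i : Fin μ) (g : F) :
    Algebra.trace K⟮x⟯ F (b i * g) =
      ∑ j, Algebra.trace K⟮x⟯ F (b i * b j) * b.repr g j := by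
  conv_lhs => rw [← b.sum_repr g]
  rw [Finset.mul_sum, map_sum]
  refine Finset.sum_congr rfl fun j _ => ?_
  rw [mul_smul_comm, map_smul, smul_eq_mul, mul_comm]

theorem trace_mul_eq_sum' (z g : F) :
    Algebra.trace K⟮x⟯ F (z * g) = ∑ i, b.repr z i * Algebra.trace K⟮x⟯ F (b i * g) := by
  conv_lhs => rw [← b.sum_repr z]
  rw [Finset.sum_mul, map_sum]
  refine Finset.sum_congr rfl fun i _ => ?_
  rw [smul_mul_assoc, map_smul, smul_eq_mul]

/-- **Tameness** `(a)`: if `Tr(θ_i Y) ∈ t² R_c` for all `i`, then `Y ∈ t O_c`. -/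
theorem cond_a [IsAlgClosed K] [CharZero K] [Algebra.IsAlgebraic K⟮x⟯ F]
    (hfin : {P : Place K F | 0 < P.ord (x - algebraMap K F c)}.Finite)
    {P₀ : Place K F} (hP₀ : 0 < P₀.ord (x - algebraMap K F c))
    (hθ : ∀ i, b i ∈ Oc x c) (hloc : ∀ f ∈ Oc x c, ∀ i, b.repr f i ∈ Rc x c)
    (y : Fin μ → K⟮x⟯) (hyR : ∀ j, y j ∈ Rc x c)
    (hy : ∀ i, ∃ q ∈ Rc x c,
      ∑ j, Algebra.trace K⟮x⟯ F (b i * b j) * y j = tK x c ^ 2 * q) :
    ∀ i, ∃ q ∈ Rc x c, y i = tK x c * q := by
  have : Infinite K := CharZero.infinite K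
  set Y : F := ∑ j, y j • b j with hYdef
  have hYO : Y ∈ Oc x c := sum_mem_Oc b hθ y hyR
  have hrepr : ∀ j, b.repr Y j = y j := fun j => by rw [hYdef, b.repr_sum_self]
  have htr : ∀ i, ∃ q ∈ Rc x c, Algebra.trace K⟮x⟯ F (b i * Y) = tK x c ^ 2 * q := by
    intro i
    obtain ⟨q, hq, h⟩ := hy i
    refine ⟨q, hq, ?_⟩
    rw [trace_basis_mul b i Y, ← h]
    exact Finset.sum_congr rfl fun j _ => by rw [hrepr]
  choose q hq hq' using htr
  have htrz : ∀ z ∈ Oc x c, ∃ q' ∈ Rc x c,
      Algebra.trace K⟮x⟯ F (z * Y) = tK x c ^ 2 * q' := by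
    intro z hz
    refine ⟨∑ i, b.repr z i * q i,
      Subring.sum_mem _ fun i _ => (Rc x c).mul_mem (hloc z hz i) (hq i), ?_⟩
    rw [trace_mul_eq_sum' b z Y, Finset.mul_sum]
    exact Finset.sum_congr rfl fun i _ => by rw [hq' i]; ring
  have hYt : ∃ g ∈ Oc x c, Y = (x - algebraMap K F c) * g := by
    by_contra hcon
    have ht0 := t_ne_zero hP₀
    have hex : ∃ P : Place K F, 0 < P.ord (x - algebraMap K F c) ∧
        Y / (x - algebraMap K F c) ∉ P.toValuationSubring := by
      by_contra h2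
      push Not at h2
      exact hcon ⟨Y / (x - algebraMap K F c), h2, by field_simp⟩
    obtain ⟨P₁, hP₁, hYP₁⟩ := hex
    have hY0 : Y ≠ 0 := by
      intro h
      rw [h, zero_div] at hYP₁
      exact hYP₁ P₁.toValuationSubring.zero_mem
    obtain ⟨f, hfO, hfid, hf1, hfoth⟩ := exists_idem hfin hP₁ hY0
    have hzO : (x - algebraMap K F c) * f / Y ∈ Oc x c := by
      intro P hP
      by_cases hne : P = P₁
      · subst hne
        have h3 : (x - algebraMap K F c) / Y ∈ P.toValuationSubring := by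
          have := (P.toValuationSubring.mem_or_inv_mem
            (Y / (x - algebraMap K F c))).resolve_left hYP₁
          rwa [inv_div] at this
        have : (x - algebraMap K F c) * f / Y = (x - algebraMap K F c) / Y * f := by ring
        rw [this]
        exact P.toValuationSubring.mul_mem _ _ h3 (hfO P hP)
      · have : (x - algebraMap K F c) * f / Y = (x - algebraMap K F c) * (f / Y) := by ring
        rw [this]
        exact P.toValuationSubring.mul_mem _ _ (t_mem_Oc x c P hP) (hfoth P hP hne).2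
    obtain ⟨q', hq'R, hq'eq⟩ := htrz _ hzO
    have hzY : (x - algebraMap K F c) * f / Y * Y = (x - algebraMap K F c) * f := by
      field_simp
    rw [hzY, trace_t_mul] at hq'eq
    have htK := tK_ne_zero hP₁
    have h4 : Algebra.trace K⟮x⟯ F f = tK x c * q' := by
      apply mul_left_cancel₀ htK
      rw [hq'eq]; ring
    exact trace_not_dvd_of_idem b hP₁ hθ hloc hfO hfid (not_dvd_of_sub_one_van hP₁ hf1)
      ⟨q', hq'R, h4⟩
  obtain ⟨g, hg, hYg⟩ := hYt
  intro i
  refine ⟨b.repr g i, hloc g hg i, ?_⟩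
  rw [← hrepr i, hYg, ← tK_smul, map_smul, Finsupp.smul_apply, smul_eq_mul]

/-- The tame bound for a basis `b` of `F / K(x)` which is a local integral basis at `c`. -/
theorem tame_core [IsAlgClosed K] [CharZero K] [Algebra.IsAlgebraic K⟮x⟯ F]
    (hfin : {P : Place K F | 0 < P.ord (x - algebraMap K F c)}.Finite)
    {P₀ : Place K F} (hP₀ : 0 < P₀.ord (x - algebraMap K F c))
    (hθ : ∀ i, b i ∈ Oc x c) (hloc : ∀ f ∈ Oc x c, ∀ i, b.repr f i ∈ Rc x c) :
    (Matrix.of fun i j => Algebra.trace K⟮x⟯ F (b i * b j)).det ≠ 0 ∧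
    (Matrix.of fun i j => Algebra.trace K⟮x⟯ F (b i * b j)).det ∈ Rc x c ∧
    ∀ k : ℕ, (∃ q ∈ Rc x c,
        (Matrix.of fun i j => Algebra.trace K⟮x⟯ F (b i * b j)).det = tK x c ^ k * q) →
      k + {P : Place K F | 0 < P.ord (x - algebraMap K F c)}.ncard ≤ μ := by
  classical
  have : Infinite K := CharZero.infinite K
  have hmax := isMaximal_span_tR hP₀
  have hchar : CharZero (Rc x c ⧸ Ideal.span {tR x c}) :=
    charZero_of_injective_ringHom
      (f := (Ideal.Quotient.mk (Ideal.span {tR x c})).comp (constHom x c)) (RingHom.injective _)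
  set φ := Ideal.Quotient.mk (Ideal.span {tR x c}) with hφ
  have hφ0 : ∀ a : Rc x c, φ a = 0 ↔ tR x c ∣ a := fun a => by
    rw [hφ, Ideal.Quotient.eq_zero_iff_mem, Ideal.mem_span_singleton]
  let _ : Fintype {P : Place K F | 0 < P.ord (x - algebraMap K F c)} := hfin.fintype
  have ht0 := t_ne_zero hP₀
  -- the Gram matrix over `R_c`
  set G : Matrix (Fin μ) (Fin μ) (Rc x c) := fun i j =>
    ⟨Algebra.trace K⟮x⟯ F (b i * b j),
      trace_mem b hθ hloc ((Oc x c).mul_mem (hθ i) (hθ j))⟩ with hG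
  have hGdet : ((G.det : Rc x c) : K⟮x⟯) =
      (Matrix.of fun i j => Algebra.trace K⟮x⟯ F (b i * b j)).det := by
    have h1 := RingHom.map_det (Rc x c).subtype G
    rw [Subring.coe_subtype] at h1
    rw [h1]
    rfl
  -- (a)
  have ha : ∀ y : Fin μ → Rc x c, (∀ i, tR x c ^ 2 ∣ (G.mulVec y) i) → ∀ i, tR x c ∣ y i := by
    intro y hy i
    refine tR_dvd_iff.mpr (cond_a b hfin hP₀ hθ hloc (fun j => (y j : K⟮x⟯))
      (fun j => (y j).2) (fun i => ?_) i)
    obtain ⟨q, hq⟩ := hy i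
    refine ⟨q, q.2, ?_⟩
    have h1 := congrArg (fun z : Rc x c => (z : K⟮x⟯)) hq
    simpa [Matrix.mulVec, dotProduct, hG, tR] using h1
  -- idempotent-like functions, one for each place over `c`
  have hex : ∀ P : {P : Place K F | 0 < P.ord (x - algebraMap K F c)}, ∃ f ∈ Oc x c,
      (∃ g ∈ Oc x c, f * f - f = (x - algebraMap K F c) * g) ∧
      f - 1 ∈ P.1.toValuationSubring.nonunits ∧
      ∀ Q : Place K F, 0 < Q.ord (x - algebraMap K F c) → Q ≠ P.1 →
        f / (x - algebraMap K F c) ∈ Q.toValuationSubring ∧ f / (1 : F) ∈ Q.toValuationSubring :=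
    fun P => exists_idem hfin P.2 one_ne_zero
  choose f hfO hfid hf1 hfoth using hex
  set V : Matrix {P : Place K F | 0 < P.ord (x - algebraMap K F c)} (Fin μ) (Rc x c) :=
    fun P i => ⟨b.repr (f P) i, hloc _ (hfO P) i⟩ with hV
  have hentry : ∀ P Q, (((V * G * V.transpose) P Q : Rc x c) : K⟮x⟯) =
      Algebra.trace K⟮x⟯ F (f P * f Q) := by
    intro P Q
    have h1 : (((V * G * V.transpose) P Q : Rc x c) : K⟮x⟯) =
        ∑ j, (∑ i, b.repr (f P) i * Algebra.trace K⟮x⟯ F (b i * b j)) * b.repr (f Q) j := by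
      simp only [Matrix.mul_apply, Matrix.transpose_apply, AddSubmonoidClass.coe_finsetSum,
        MulMemClass.coe_mul]
      rfl
    rw [h1, trace_mul_eq_sum b (f P) (f Q), Finset.sum_comm]
    refine Finset.sum_congr rfl fun j _ => ?_
    rw [Finset.sum_mul]
  have hoff : ∀ P Q, P ≠ Q → φ ((V * G * V.transpose) P Q) = 0 := by
    intro P Q hPQ
    rw [hφ0]
    have hg : f P * f Q / (x - algebraMap K F c) ∈ Oc x c := by
      intro P' hP'
      by_cases h1 : P' = P.1
      · have h2 : P' ≠ Q.1 := by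
          intro h3
          exact hPQ (Subtype.ext (h1.symm.trans h3))
        have : f P * f Q / (x - algebraMap K F c)
            = f P * (f Q / (x - algebraMap K F c)) := by ring
        rw [this]
        exact P'.toValuationSubring.mul_mem _ _ (hfO P P' hP') (hfoth Q P' hP' h2).1
      · have : f P * f Q / (x - algebraMap K F c)
            = f P / (x - algebraMap K F c) * f Q := by ring
        rw [this]
        exact P'.toValuationSubring.mul_mem _ _ (hfoth P P' hP' h1).1 (hfO Q P' hP')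
    refine tR_dvd_iff.mpr ⟨Algebra.trace K⟮x⟯ F (f P * f Q / (x - algebraMap K F c)),
      trace_mem b hθ hloc hg, ?_⟩
    rw [hentry, ← trace_t_mul]
    congr 1
    field_simp
  have hdiag : ∀ P, φ ((V * G * V.transpose) P P) ≠ 0 := by
    intro P h
    rw [hφ0] at h
    obtain ⟨q, hq, h1⟩ := tR_dvd_iff.mp h
    rw [hentry] at h1
    obtain ⟨g, hg, hfg⟩ := hfid P
    apply trace_not_dvd_of_idem b P.2 hθ hloc (hfO P) (hfid P)
      (not_dvd_of_sub_one_van P.2 (hf1 P))
    refine ⟨q - Algebra.trace K⟮x⟯ F g, (Rc x c).sub_mem hq (trace_mem b hθ hloc hg), ?_⟩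
    have h2 : Algebra.trace K⟮x⟯ F (f P) = Algebra.trace K⟮x⟯ F (f P * f P) -
        Algebra.trace K⟮x⟯ F (f P * f P - f P) := by
      rw [map_sub]; ring
    rw [h2, h1, hfg, trace_t_mul]
    ring
  have hVdet : φ (V * G * V.transpose).det ≠ 0 := by
    have h1 : (V * G * V.transpose).map φ =
        Matrix.diagonal (fun P => φ ((V * G * V.transpose) P P)) := by
      ext P Q
      by_cases hPQ : P = Q
      · subst hPQ; simp
      · rw [Matrix.map_apply, Matrix.diagonal_apply_ne _ hPQ, hoff P Q hPQ]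
    have h2 : φ (V * G * V.transpose).det = ((V * G * V.transpose).map φ).det := by
      rw [RingHom.map_det]; rfl
    rw [h2, h1, Matrix.det_diagonal]
    exact Finset.prod_ne_zero_iff.mpr fun P _ => hdiag P
  obtain ⟨hdet, hk⟩ := tame_count φ Ideal.Quotient.mk_surjective (tR x c) (tR_ne_zero hP₀) hφ0
    (fun a ha => isUnit_of_not_dvd hP₀ (fun h => ha ((hφ0 a).mpr h)))
    (fun a ha => exists_not_pow_dvd hP₀ ha) G ha V hVdet
  refine ⟨?_, ?_, ?_⟩
  · rw [← hGdet]
    intro h
    exact hdet (Subtype.ext h)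
  · rw [← hGdet]
    exact G.det.2
  · rintro k ⟨q, hq, hqe⟩
    have h1 : tR x c ^ k ∣ G.det := ⟨⟨q, hq⟩, Subtype.ext (by rw [hGdet, hqe]; simp [tR])⟩
    have h2 := hk k h1
    simp only [Fintype.card_fin] at h2
    have h3 : Fintype.card {P : Place K F | 0 < P.ord (x - algebraMap K F c)} =
        {P : Place K F | 0 < P.ord (x - algebraMap K F c)}.ncard := by
      rw [Set.ncard_eq_toFinset_card _ hfin, Set.Finite.card_toFinset]
    omega

end Main

/-! ### The exported statements -/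

section Export

/-- Auxiliary form of `tame_bound` (with the regularity of the Gram determinant). -/
theorem tame_bound_aux [IsAlgClosed K] [CharZero K] (x : F) [FiniteDimensional K⟮x⟯ F] (c : K)
    (hfin : {P : Place K F | 0 < P.ord (x - algebraMap K F c)}.Finite)
    (θ : Fin (Module.finrank K⟮x⟯ F) → F)
    (hθ : ∀ i, ∀ P : Place K F, 0 < P.ord (x - algebraMap K F c) → 0 ≤ P.ord (θ i))
    (hloc : ∀ r : Fin (Module.finrank K⟮x⟯ F) → K⟮x⟯,
      (∀ P : Place K F, 0 < P.ord (x - algebraMap K F c) → 0 ≤ P.ord (∑ i, (r i : F) * θ i)) →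
      ∀ i, ∀ P : Place K F, 0 < P.ord (x - algebraMap K F c) → 0 ≤ P.ord ((r i : K⟮x⟯) : F))
    (P : Place K F) (hP : 0 < P.ord (x - algebraMap K F c)) :
    ((H74.gramDet K F x θ : K⟮x⟯) : F) ≠ 0 ∧
    0 ≤ P.ord ((H74.gramDet K F x θ : K⟮x⟯) : F) ∧
    P.ord ((H74.gramDet K F x θ : K⟮x⟯) : F) +
        ({P : Place K F | 0 < P.ord (x - algebraMap K F c)}.ncard : ℤ) *
          P.ord (x - algebraMap K F c)
      ≤ (Module.finrank K⟮x⟯ F : ℤ) * P.ord (x - algebraMap K F c) := by
  have ht0 := t_ne_zero hP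
  -- linear independence of `θ`
  have hli : LinearIndependent K⟮x⟯ θ := by
    rw [Fintype.linearIndependent_iff]
    intro g hg i
    by_contra hgi
    set N : ℕ := (P.ord ((g i : K⟮x⟯) : F)).toNat + 1 with hN
    have h1 := hloc (fun j => (tK x c)⁻¹ ^ N * g j) (fun Q _ => by
      have h2 : ∑ j, (((tK x c)⁻¹ ^ N * g j : K⟮x⟯) : F) * θ j = 0 := by
        have h3 : ∑ j, (((tK x c)⁻¹ ^ N * g j : K⟮x⟯) : F) * θ j
            = ((tK x c)⁻¹ ^ N : K⟮x⟯) • ∑ j, g j • θ j := by
          rw [Finset.smul_sum]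
          refine Finset.sum_congr rfl fun j _ => ?_
          rw [smul_smul, Algebra.smul_def, IntermediateField.algebraMap_apply]
        rw [h3, hg, smul_zero]
      rw [h2]; simp) i P hP
    have hgi' : ((g i : K⟮x⟯) : F) ≠ 0 := by simpa using hgi
    rw [IntermediateField.coe_mul, IntermediateField.coe_pow, IntermediateField.coe_inv, coe_tK,
      P.ord_mul (pow_ne_zero _ (inv_ne_zero ht0)) hgi', S24.ord_pow, P.ord_inv] at h1
    have h4 := Int.self_le_toNat (P.ord ((g i : K⟮x⟯) : F))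
    have h5 : (N : ℤ) = (P.ord ((g i : K⟮x⟯) : F)).toNat + 1 := by rw [hN]; push_cast; ring
    nlinarith
  have : Nonempty (Fin (Module.finrank K⟮x⟯ F)) := ⟨⟨0, Module.finrank_pos⟩⟩
  set b := basisOfLinearIndependentOfCardEqFinrank hli (by simp) with hb
  have hbθ : ∀ i, b i = θ i := fun i => by
    rw [hb, coe_basisOfLinearIndependentOfCardEqFinrank]
  have hθ' : ∀ i, b i ∈ Oc x c := fun i => by
    rw [hbθ, mem_Oc_iff_ord]; exact hθ i
  have hloc' : ∀ f ∈ Oc x c, ∀ i, b.repr f i ∈ Rc x c := by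
    intro f hf i
    rw [mem_Rc, mem_Oc_iff_ord]
    refine hloc (fun j => b.repr f j) (fun Q hQ => ?_) i
    have h2 : ∑ j, ((b.repr f j : K⟮x⟯) : F) * θ j = f := by
      conv_rhs => rw [← b.sum_repr f]
      exact Finset.sum_congr rfl fun j _ => by
        rw [Algebra.smul_def, hbθ, IntermediateField.algebraMap_apply]
    rw [h2]
    exact (mem_Oc_iff_ord x c).mp hf Q hQ
  have : Algebra.IsAlgebraic K⟮x⟯ F := Algebra.IsAlgebraic.of_finite _ _
  obtain ⟨hdet, hDR, hk⟩ := tame_core b hfin hP hθ' hloc'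
  have hgram : H74.gramDet K F x θ =
      (Matrix.of fun i j => Algebra.trace K⟮x⟯ F (b i * b j)).det := by
    unfold H74.gramDet
    congr 1
    ext i j
    simp [hbθ]
  rw [hgram]
  set D := (Matrix.of fun i j => Algebra.trace K⟮x⟯ F (b i * b j)).det with hD
  have hD0 : ((D : K⟮x⟯) : F) ≠ 0 := by simpa using hdet
  obtain ⟨kk, hkk⟩ := exists_ord_eq x c D hdet
  have hDreg : 0 ≤ P.ord ((D : K⟮x⟯) : F) := (reg_iff P _).mp (hDR P hP)
  have hkk0 : 0 ≤ kk := by
    have h1 := hDreg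
    rw [hkk P hP] at h1
    by_contra hcon
    push Not at hcon
    nlinarith
  obtain ⟨k, rfl⟩ := Int.eq_ofNat_of_zero_le hkk0
  have hq : D / tK x c ^ k ∈ Rc x c := by
    apply mem_Rc_of_reg hP
    rw [reg_iff, IntermediateField.coe_div, IntermediateField.coe_pow, coe_tK,
      S24.ord_div P hD0 (pow_ne_zero _ ht0), S24.ord_pow, hkk P hP]
    simp
  have h2 := hk k ⟨D / tK x c ^ k, hq, by
    have := tK_ne_zero hP
    field_simp⟩
  refine ⟨hD0, hDreg, ?_⟩
  rw [hkk P hP]
  have h3 : ((k : ℤ) + ({P : Place K F | 0 < P.ord (x - algebraMap K F c)}.ncard : ℤ))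
      ≤ (Module.finrank K⟮x⟯ F : ℤ) := by exact_mod_cast h2
  nlinarith

/-- **Tame discriminant bound, place language.**  `θ` a local integral basis at `c` of the finite
extension `F / K(x)` (`K` algebraically closed of characteristic zero, finite fibre over `c`).
Then the Gram determinant `det Tr(θ_i θ_j)` is nonzero and, at every place `P` over `c`,
`ord_P (gramDet) + #{places over c} * e_P ≤ [F : K(x)] * e_P`, `e_P = ord_P (x - c)`;
i.e. `ord_{x = c} (gramDet) ≤ [F : K(x)] - #{places over c}`. -/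
theorem tame_bound [IsAlgClosed K] [CharZero K] (x : F) [FiniteDimensional K⟮x⟯ F] (c : K)
    (hfin : {P : Place K F | 0 < P.ord (x - algebraMap K F c)}.Finite)
    (θ : Fin (Module.finrank K⟮x⟯ F) → F)
    (hθ : ∀ i, ∀ P : Place K F, 0 < P.ord (x - algebraMap K F c) → 0 ≤ P.ord (θ i))
    (hloc : ∀ r : Fin (Module.finrank K⟮x⟯ F) → K⟮x⟯,
      (∀ P : Place K F, 0 < P.ord (x - algebraMap K F c) → 0 ≤ P.ord (∑ i, (r i : F) * θ i)) →
      ∀ i, ∀ P : Place K F, 0 < P.ord (x - algebraMap K F c) → 0 ≤ P.ord ((r i : K⟮x⟯) : F))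
    (P : Place K F) (hP : 0 < P.ord (x - algebraMap K F c)) :
    ((H74.gramDet K F x θ : K⟮x⟯) : F) ≠ 0 ∧
    P.ord ((H74.gramDet K F x θ : K⟮x⟯) : F) +
        ({P : Place K F | 0 < P.ord (x - algebraMap K F c)}.ncard : ℤ) *
          P.ord (x - algebraMap K F c)
      ≤ (Module.finrank K⟮x⟯ F : ℤ) * P.ord (x - algebraMap K F c) :=
  ⟨(tame_bound_aux x c hfin θ hθ hloc P hP).1, (tame_bound_aux x c hfin θ hθ hloc P hP).2.2⟩

/-- The Gram determinant of a local integral basis at `c` is regular over `c`. -/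
theorem gramDet_ord_nonneg [IsAlgClosed K] [CharZero K] (x : F) [FiniteDimensional K⟮x⟯ F]
    (c : K) (hfin : {P : Place K F | 0 < P.ord (x - algebraMap K F c)}.Finite)
    (θ : Fin (Module.finrank K⟮x⟯ F) → F)
    (hθ : ∀ i, ∀ P : Place K F, 0 < P.ord (x - algebraMap K F c) → 0 ≤ P.ord (θ i))
    (hloc : ∀ r : Fin (Module.finrank K⟮x⟯ F) → K⟮x⟯,
      (∀ P : Place K F, 0 < P.ord (x - algebraMap K F c) → 0 ≤ P.ord (∑ i, (r i : F) * θ i)) →
      ∀ i, ∀ P : Place K F, 0 < P.ord (x - algebraMap K F c) → 0 ≤ P.ord ((r i : K⟮x⟯) : F))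
    (P : Place K F) (hP : 0 < P.ord (x - algebraMap K F c)) :
    0 ≤ P.ord ((H74.gramDet K F x θ : K⟮x⟯) : F) :=
  (tame_bound_aux x c hfin θ hθ hloc P hP).2.1

/-- Elements of `K(x)` regular at `c` are `p(x) / q(x)` with `q(c) ≠ 0`. -/
theorem exists_poly_repr {x : F} {c : K} {P : Place K F}
    (hP : 0 < P.ord (x - algebraMap K F c)) (r : K⟮x⟯) (hr : 0 ≤ P.ord (r : F)) :
    ∃ p q : K[X], q.eval c ≠ 0 ∧ (r : F) * aeval x q = aeval x p := by
  by_cases hr0 : r = 0
  · exact ⟨0, 1, by simp, by simp [hr0]⟩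
  obtain ⟨p₀, q₀, hpq⟩ := (mem_adjoin_simple_iff K (r : F)).mp r.2
  have hr' : (r : F) ≠ 0 := by simpa using hr0
  have hp₀ : p₀ ≠ 0 := by rintro rfl; apply hr'; rw [hpq]; simp
  have hq₀ : q₀ ≠ 0 := by rintro rfl; apply hr'; rw [hpq]; simp
  obtain ⟨p₁, hp₁, -⟩ := exists_eq_pow_rootMultiplicity_mul_and_not_dvd p₀ hp₀ c
  obtain ⟨q₁, hq₁, hq₁'⟩ := exists_eq_pow_rootMultiplicity_mul_and_not_dvd q₀ hq₀ c
  obtain ⟨hp1, hp2⟩ := ord_aeval hP hp₀
  obtain ⟨hq1, hq2⟩ := ord_aeval hP hq₀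
  have ht0 := t_ne_zero hP
  have hle : q₀.rootMultiplicity c ≤ p₀.rootMultiplicity c := by
    rw [hpq, S24.ord_div P hp1 hq1, hp2, hq2] at hr
    by_contra hcon
    push Not at hcon
    have : (p₀.rootMultiplicity c : ℤ) + 1 ≤ q₀.rootMultiplicity c := by exact_mod_cast hcon
    nlinarith
  have hq₁c : q₁.eval c ≠ 0 := fun h => hq₁' (dvd_iff_isRoot.mpr h)
  have hq₁x : aeval x q₁ ≠ 0 := by
    intro h
    apply hq1
    rw [hq₁, map_mul, h, mul_zero]
  refine ⟨(X - C c) ^ (p₀.rootMultiplicity c - q₀.rootMultiplicity c) * p₁, q₁, hq₁c, ?_⟩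
  have e1 : aeval x p₀ = (x - algebraMap K F c) ^ (p₀.rootMultiplicity c) * aeval x p₁ := by
    conv_lhs => rw [hp₁]
    simp
  have e2 : aeval x q₀ = (x - algebraMap K F c) ^ (q₀.rootMultiplicity c) * aeval x q₁ := by
    conv_lhs => rw [hq₁]
    simp
  have e3 : (x - algebraMap K F c) ^ (p₀.rootMultiplicity c)
      = (x - algebraMap K F c) ^ (p₀.rootMultiplicity c - q₀.rootMultiplicity c) *
        (x - algebraMap K F c) ^ (q₀.rootMultiplicity c) := by
    rw [← pow_add, Nat.sub_add_cancel hle]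
  rw [hpq, e1, e2, e3]
  simp only [map_mul, map_pow, map_sub, aeval_X, aeval_C]
  field_simp

/-- **Tame discriminant bound, polynomial form**: if `gramDet * q(x) = p(x)` with `q(c) ≠ 0`, then
`ord_c p + #{places over c} ≤ [F : K(x)]`. -/
theorem tame_bound_poly [IsAlgClosed K] [CharZero K] (x : F) [FiniteDimensional K⟮x⟯ F] (c : K)
    (hfin : {P : Place K F | 0 < P.ord (x - algebraMap K F c)}.Finite)
    (hne : ∃ P : Place K F, 0 < P.ord (x - algebraMap K F c))
    (θ : Fin (Module.finrank K⟮x⟯ F) → F)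
    (hθ : ∀ i, ∀ P : Place K F, 0 < P.ord (x - algebraMap K F c) → 0 ≤ P.ord (θ i))
    (hloc : ∀ r : Fin (Module.finrank K⟮x⟯ F) → K⟮x⟯,
      (∀ P : Place K F, 0 < P.ord (x - algebraMap K F c) → 0 ≤ P.ord (∑ i, (r i : F) * θ i)) →
      ∀ i, ∀ P : Place K F, 0 < P.ord (x - algebraMap K F c) → 0 ≤ P.ord ((r i : K⟮x⟯) : F))
    (p q : K[X]) (hq : q.eval c ≠ 0)
    (h : ((H74.gramDet K F x θ : K⟮x⟯) : F) * aeval x q = aeval x p) :
    p.rootMultiplicity c + {P : Place K F | 0 < P.ord (x - algebraMap K F c)}.ncard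
      ≤ Module.finrank K⟮x⟯ F := by
  obtain ⟨P, hP⟩ := hne
  obtain ⟨hD, hle⟩ := tame_bound x c hfin θ hθ hloc P hP
  have hq0 : q ≠ 0 := by rintro rfl; simp at hq
  obtain ⟨hq1, hq2⟩ := ord_aeval hP hq0
  have hqr : q.rootMultiplicity c = 0 := rootMultiplicity_eq_zero hq
  rw [hqr] at hq2
  simp only [Nat.cast_zero, zero_mul] at hq2
  have hp0 : p ≠ 0 := by
    rintro rfl
    rw [map_zero] at h
    exact mul_ne_zero hD hq1 h
  obtain ⟨hp1, hp2⟩ := ord_aeval hP hp0
  have h3 : P.ord ((H74.gramDet K F x θ : K⟮x⟯) : F)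
      = (p.rootMultiplicity c : ℤ) * P.ord (x - algebraMap K F c) := by
    have h4 := congrArg P.ord h
    rw [P.ord_mul hD hq1, hq2, add_zero, hp2] at h4
    exact h4
  rw [h3] at hle
  have h5 : ((p.rootMultiplicity c : ℤ) +
      ({P : Place K F | 0 < P.ord (x - algebraMap K F c)}.ncard : ℤ))
      ≤ (Module.finrank K⟮x⟯ F : ℤ) := by
    by_contra hcon
    push Not at hcon
    nlinarith
  exact_mod_cast h5

/-- **Tame discriminant bound, existence form.** -/
theorem tame_bound_exists [IsAlgClosed K] [CharZero K] (x : F) [FiniteDimensional K⟮x⟯ F] (c : K)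
    (hfin : {P : Place K F | 0 < P.ord (x - algebraMap K F c)}.Finite)
    (hne : ∃ P : Place K F, 0 < P.ord (x - algebraMap K F c))
    (θ : Fin (Module.finrank K⟮x⟯ F) → F)
    (hθ : ∀ i, ∀ P : Place K F, 0 < P.ord (x - algebraMap K F c) → 0 ≤ P.ord (θ i))
    (hloc : ∀ r : Fin (Module.finrank K⟮x⟯ F) → K⟮x⟯,
      (∀ P : Place K F, 0 < P.ord (x - algebraMap K F c) → 0 ≤ P.ord (∑ i, (r i : F) * θ i)) →
      ∀ i, ∀ P : Place K F, 0 < P.ord (x - algebraMap K F c) → 0 ≤ P.ord ((r i : K⟮x⟯) : F)) :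
    ∃ p q : K[X], q.eval c ≠ 0 ∧
      ((H74.gramDet K F x θ : K⟮x⟯) : F) * aeval x q = aeval x p ∧
      p.rootMultiplicity c + {P : Place K F | 0 < P.ord (x - algebraMap K F c)}.ncard
        ≤ Module.finrank K⟮x⟯ F := by
  obtain ⟨P, hP⟩ := hne
  have hreg := gramDet_ord_nonneg x c hfin θ hθ hloc P hP
  obtain ⟨p, q, hq, hpq⟩ := exists_poly_repr hP (H74.gramDet K F x θ) hreg
  exact ⟨p, q, hq, hpq, tame_bound_poly x c hfin ⟨P, hP⟩ θ hθ hloc p q hq hpq⟩

end Export

end Fermat.Agent.S18.H7
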