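/-
S18 / Program J, leaf C1-D1e (helper7): the node `tame_local` of the C1 sub-skeleton
(`Fermat/Agent/S18/H49/C1Skel.lean` on origin/helper49), VERBATIM, from `H7.tame_bound`.

For a local integral basis `θ` at `c`: `gramDet θ = (x - c) ^ n * ε` with `ε ∈ K(x)` a unit at `c`
and `n + #{places over c} ≤ [F : K(x)]`.
-/
import Fermat.Agent.S18.H7.TameBound

set_option autoImplicit false

open AlgebraicCurve IntermediateField Polynomial

noncomputable section

namespace Fermat.Agent.S18.H7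

open Fermat.Agent.S24 Fermat.Agent.S18.H74

variable {K F : Type*} [Field K] [Field F] [Algebra K F] {x : F}

/-- **D1(e)**, shape of the C1 sub-skeleton (no transcendence hypothesis is needed). -/
theorem tame_local' [IsAlgClosed K] [CharZero K]
    [FiniteDimensional K⟮x⟯ F] (θ : Fin (Module.finrank K⟮x⟯ F) → F) (c : K)
    (hreg : ∀ i, ∀ P : Place K F, 0 < P.ord (x - algebraMap K F c) → 0 ≤ P.ord (θ i))
    (hloc : ∀ r : Fin (Module.finrank K⟮x⟯ F) → K⟮x⟯,
      (∀ P : Place K F, 0 < P.ord (x - algebraMap K F c) → 0 ≤ P.ord (∑ i, (r i : F) * θ i)) →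
      ∀ i, ∀ P : Place K F, 0 < P.ord (x - algebraMap K F c) → 0 ≤ P.ord (r i : F))
    (T : Finset (Place K F)) (hT : ∀ P, P ∈ T ↔ 0 < P.ord (x - algebraMap K F c)) :
    ∃ (n : ℕ) (ε : K⟮x⟯), n + T.card ≤ Module.finrank K⟮x⟯ F ∧
      ((gramDet K F x θ : K⟮x⟯) : F) = (x - algebraMap K F c) ^ n * (ε : F) ∧
      ∀ P : Place K F, 0 < P.ord (x - algebraMap K F c) → P.ord (ε : F) = 0 := by
  classical
  have hset : {P : Place K F | 0 < P.ord (x - algebraMap K F c)} = (T : Set (Place K F)) := by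
    ext P
    simp [hT]
  have hfin : {P : Place K F | 0 < P.ord (x - algebraMap K F c)}.Finite := by
    rw [hset]; exact T.finite_toSet
  have hcard : {P : Place K F | 0 < P.ord (x - algebraMap K F c)}.ncard = T.card := by
    rw [hset, Set.ncard_coe_finset]
  by_cases hne : ∃ P : Place K F, 0 < P.ord (x - algebraMap K F c)
  · obtain ⟨P, hP⟩ := hne
    obtain ⟨hD0, hDreg, hle⟩ := tame_bound_aux x c hfin θ hreg hloc P hP
    set D : K⟮x⟯ := gramDet K F x θ with hD
    have hDne : D ≠ 0 := by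
      intro h
      apply hD0
      rw [h]; simp
    obtain ⟨kk, hkk⟩ := exists_ord_eq x c D hDne
    have hkk0 : 0 ≤ kk := by
      have h1 := hDreg
      rw [hkk P hP] at h1
      by_contra hcon
      push Not at hcon
      nlinarith
    obtain ⟨k, rfl⟩ := Int.eq_ofNat_of_zero_le hkk0
    have htK := tK_ne_zero hP
    refine ⟨k, D / tK x c ^ k, ?_, ?_, ?_⟩
    · rw [hkk P hP, hcard] at hle
      have h3 : ((k : ℤ) + (T.card : ℤ)) ≤ (Module.finrank K⟮x⟯ F : ℤ) := by
        by_contra hcon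
        push Not at hcon
        nlinarith
      exact_mod_cast h3
    · rw [IntermediateField.coe_div, IntermediateField.coe_pow, coe_tK]
      have ht0 := t_ne_zero hP
      field_simp
    · intro Q hQ
      have ht0 := t_ne_zero hQ
      rw [IntermediateField.coe_div, IntermediateField.coe_pow, coe_tK,
        S24.ord_div Q hD0 (pow_ne_zero _ ht0), S24.ord_pow, hkk Q hQ]
      simp
  · refine ⟨0, gramDet K F x θ, ?_, by simp, fun P hP => absurd ⟨P, hP⟩ hne⟩
    have hT0 : T.card = 0 := by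
      rw [Finset.card_eq_zero, Finset.eq_empty_iff_forall_notMem]
      intro P hP
      exact hne ⟨P, (hT P).mp hP⟩
    rw [hT0]
    exact Nat.zero_le _

/-- **D1(e)**: the node `tame_local` of the C1 sub-skeleton, VERBATIM (the hypothesis `hx` is not
used). -/
theorem tame_local [IsAlgClosed K] [CharZero K] (_hx : Transcendental K x)
    [FiniteDimensional K⟮x⟯ F] (θ : Fin (Module.finrank K⟮x⟯ F) → F) (c : K)
    (hreg : ∀ i, ∀ P : Place K F, 0 < P.ord (x - algebraMap K F c) → 0 ≤ P.ord (θ i))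
    (hloc : ∀ r : Fin (Module.finrank K⟮x⟯ F) → K⟮x⟯,
      (∀ P : Place K F, 0 < P.ord (x - algebraMap K F c) → 0 ≤ P.ord (∑ i, (r i : F) * θ i)) →
      ∀ i, ∀ P : Place K F, 0 < P.ord (x - algebraMap K F c) → 0 ≤ P.ord (r i : F))
    (T : Finset (Place K F)) (hT : ∀ P, P ∈ T ↔ 0 < P.ord (x - algebraMap K F c)) :
    ∃ (n : ℕ) (ε : K⟮x⟯), n + T.card ≤ Module.finrank K⟮x⟯ F ∧
      ((gramDet K F x θ : K⟮x⟯) : F) = (x - algebraMap K F c) ^ n * (ε : F) ∧
      ∀ P : Place K F, 0 < P.ord (x - algebraMap K F c) → P.ord (ε : F) = 0 :=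
  tame_local' θ c hreg hloc T hT

end Fermat.Agent.S18.H7
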